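import Mathlib
import Fermat.Agent.Lib.BadRed.PNew.Bridge
import Fermat.Agent.Lib.BadRed.PNew.WMain
import Fermat.Agent.Lib.BadRed.PNew.CovInst
import Fermat.Agent.S59.DefCond.StrictOrdArith

set_option autoImplicit false
set_option linter.unusedVariables false
set_option linter.unusedSectionVars false
set_option linter.style.haveILetI false
set_option synthInstance.maxHeartbeats 400000
set_option maxHeartbeats 1000000

/-!
# Row 38, block S (interface with S33-new; helper11)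

Level `N₀ * p` (`p ∤ N₀`, `p` odd), `D` an Atkin-Lehner datum with `D.Q = p`, `D.R = N₀`,
`AuxOK D`, `A` a place of `ℚ̄` over `p`, `I` its inertia group,
`Sp = PNew.spSub N₀ p D hM A = (p-new) ∩ K'`, `K' = PNew.kPrime D hM A p` (classes with a Kummer
generator of `p`-power exponent which reduces to `1` for both Gauss valuations, i.e. `Ψ = 0`).

* `r38_splitG1`, `r38_splitG2` : (G1), (G2) for `Sp`, UNCONDITIONAL (S33-new: helper46's bridge,
  helper66's (W1), helper12's modular instance of (COV));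
* `r38_inertia_fix` : an element of `I` which fixes `μ_p` fixes `Sp[p]` pointwise
  (`l ∈ L` is `K₁`-rational);
* `r38_notMem_kPrime` (abstract form of helper76's (E)): let `G` be a Galois module,
  `E1 ≤ G` a subgroup such that `I` acts trivially on `G[p]` modulo `E1`, and
  `θ : G → J₀(N₀ p)` an equivariant map, injective on `G[p]`, with `p`-new values on `G[p]`.
  Then `θ x ∉ K'` for every `x ∈ G[p] \ E1`.
-/

noncomputable section

namespace Fermat.Agent.R38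

open ModularCurve AlgebraicCurve Fermat.Agent.F3 Fermat.Agent.AtkinLehner Fermat.Agent.BadRed
  Fermat.Agent.BadRed.PNew Fermat.Agent.BadRed.PullAux Fermat.Agent.F3Deg Fermat.Agent.F3DegW

local notation "Qb" => (AlgebraicClosure ℚ)

variable {p N₀ : ℕ} [NeZero N₀] [NeZero p] {D : ALData} {hM : N₀ * p = D.Q * D.R}
  {A : ValuationSubring Qb}

/-- **(G1)** for `Sp`. -/
theorem r38_splitG1 (hp : p.Prime) (hQ : D.Q = p) (hA : A.LiesOverPrime p)
    {n : ℕ} {x : JZero (N₀ * p)} (hx : (p ^ n) • x = 0)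
    (h1 : pushAlpha N₀ p x = 0) (h2 : pushAlpha N₀ p (pushWAt D hM x) = 0)
    {τ : Qb ≃ₐ[ℚ] Qb} (hτ : τ ∈ A.inertiaSubgroupIn ℚ) :
    τ • x - x ∈ spSub N₀ p D hM A :=
  smul_sub_mem_spSub (hQ ▸ hp) (hQ ▸ hA) hx h1 h2 hτ

/-- **(G2)** for `Sp`, unconditional. -/
theorem r38_splitG2 (hp : p.Prime) (hpN : ¬ p ∣ N₀) (hQ : D.Q = p) (hR : D.R = N₀)
    (haux : AuxLevel.AuxOK D) (hA : A.LiesOverPrime p) :
    haveI : NeZero (N₀ * p) := ⟨Nat.mul_ne_zero (NeZero.ne N₀) (NeZero.ne p)⟩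
    SplitG2 p (N₀ * p) A (spSub N₀ p D hM A) := by
  haveI : NeZero (N₀ * p) := ⟨Nat.mul_ne_zero (NeZero.ne N₀) (NeZero.ne p)⟩
  obtain ⟨ζ, hζ⟩ : ∃ ζ : Qb, IsPrimitiveRoot ζ p := by
    haveI : NeZero ((p : ℕ) : Qb) := ⟨by exact_mod_cast hp.ne_zero⟩
    exact HasEnoughRootsOfUnity.exists_primitiveRoot Qb p
  refine splitG2_spSub D hM A hp hA ?_ hζ (covInst_all p D hp hQ haux A hA ζ hζ)
  intro g hg _ hnew hred _
  exact w1_split D hM hp hpN hQ hR A hA hg hnew hred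

/-- an element of the inertia group which fixes `μ_p` fixes `Sp[p]` pointwise. -/
theorem r38_inertia_fix (hp : p.Prime) (hpN : ¬ p ∣ N₀) (hQ : D.Q = p) (hR : D.R = N₀)
    (haux : AuxLevel.AuxOK D) (hA : A.LiesOverPrime p)
    {l : JZero (N₀ * p)} (hl : l ∈ spSub N₀ p D hM A) (hpl : p • l = 0)
    {σ : Qb ≃ₐ[ℚ] Qb} (hσ : σ ∈ A.inertiaSubgroupIn ℚ)
    (hfix : ∀ ζ : Qb, ζ ^ p = 1 → σ ζ = ζ) : σ • l = l := by
  have h := r38_splitG2 (hM := hM) hp hpN hQ hR haux hA l hl hpl σ hσ 1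
    (fun ζ hζ => by rw [pow_one]; exact hfix ζ hζ)
  rw [one_nsmul] at h
  exact h

/-- an element of the inertia group which inverts `μ_p` acts by `-1` on `Sp[p]`. -/
theorem r38_inertia_neg (hp : p.Prime) (hpN : ¬ p ∣ N₀) (hQ : D.Q = p) (hR : D.R = N₀)
    (haux : AuxLevel.AuxOK D) (hA : A.LiesOverPrime p)
    {l : JZero (N₀ * p)} (hl : l ∈ spSub N₀ p D hM A) (hpl : p • l = 0)
    {σ : Qb ≃ₐ[ℚ] Qb} (hσ : σ ∈ A.inertiaSubgroupIn ℚ)
    (hinv : ∀ ζ : Qb, ζ ^ p = 1 → σ ζ = ζ⁻¹) : σ • l = -l := by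
  have h := r38_splitG2 (hM := hM) hp hpN hQ hR haux hA l hl hpl σ hσ (p - 1)
    (fun ζ hζ => by
      rw [hinv ζ hζ]
      apply inv_eq_of_mul_eq_one_right
      rw [← pow_succ', Nat.sub_add_cancel hp.one_le, hζ])
  rw [h]
  have h2 : (p - 1) • l + l = 0 := by
    rw [← succ_nsmul, Nat.sub_add_cancel hp.one_le, hpl]
  exact eq_neg_of_add_eq_zero_left h2

section Abstract

variable {G : Type*} [AddCommGroup G] [DistribMulAction (Qb ≃ₐ[ℚ] Qb) G]

/-- **(E), abstract form**: the points of `G[p]` outside `E1` go to classes outside `K'`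
(`Ψ ≠ 0`). -/
theorem r38_notMem_kPrime (hp : p.Prime) (hp2 : p ≠ 2) (hpN : ¬ p ∣ N₀) (hQ : D.Q = p)
    (hR : D.R = N₀) (haux : AuxLevel.AuxOK D) (hA : A.LiesOverPrime p)
    (E1 : AddSubgroup G)
    (hE1 : ∀ σ ∈ A.inertiaSubgroupIn ℚ, ∀ x : G, p • x = 0 → σ • x - x ∈ E1)
    (θ : G →+ JZero (N₀ * p))
    (hinj : ∀ x : G, p • x = 0 → θ x = 0 → x = 0)
    (heq : ∀ (σ : Qb ≃ₐ[ℚ] Qb) (x : G), θ (σ • x) = σ • θ x)
    (hnew : ∀ x : G, p • x = 0 →
      pushAlpha N₀ p (θ x) = 0 ∧ pushAlpha N₀ p (pushWAt D hM (θ x)) = 0)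
    {x : G} (hx : p • x = 0) (hx1 : x ∉ E1) : θ x ∉ kPrime D hM A p := by
  haveI : Fact p.Prime := ⟨hp⟩
  intro hk
  have hθx : p • θ x = 0 := by rw [← map_nsmul, hx, map_zero]
  have hSp : θ x ∈ spSub N₀ p D hM A := by
    rw [mem_spSub_iff]
    exact ⟨(hnew x hx).1, (hnew x hx).2, mem_kPrime_iff.mp hk⟩
  obtain ⟨σ, hσ, hinv⟩ := Fermat.Agent.S59.SOArith.exists_inertia_inv_on_roots p A hA
  have h1 : σ • θ x = -θ x := r38_inertia_neg (hM := hM) hp hpN hQ hR haux hA hSp hθx hσ hinv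
  -- `σ x = - x`
  have h2 : σ • x = -x := by
    have h3 : θ (σ • x + x) = 0 := by
      rw [map_add, heq, h1, neg_add_cancel]
    have h4 : p • (σ • x + x) = 0 := by
      rw [smul_add, smul_comm, hx, smul_zero, add_zero]
    exact eq_neg_of_add_eq_zero_left (hinj _ h4 h3)
  -- `2 x ∈ E1`
  have h5 : σ • x - x ∈ E1 := hE1 σ hσ x hx
  rw [h2] at h5
  have h6 : (2 : ℤ) • x ∈ E1 := by
    have : (2 : ℤ) • x = -(-x - x) := by
      rw [two_smul]; abel
    rw [this]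
    exact E1.neg_mem h5
  -- `x ∈ E1` as `p` is odd
  have hcop : IsCoprime (2 : ℤ) (p : ℤ) := by
    have h7 : Nat.Coprime 2 p :=
      (Nat.coprime_primes Nat.prime_two hp).mpr (Ne.symm hp2)
    exact_mod_cast Nat.isCoprime_iff_coprime.mpr h7
  obtain ⟨u, v, huv⟩ := hcop
  apply hx1
  have h8 : x = u • ((2 : ℤ) • x) + v • ((p : ℤ) • x) := by
    rw [smul_smul, smul_smul, ← add_smul, huv, one_smul]
  rw [h8, natCast_zsmul, hx, smul_zero, add_zero]
  exact E1.zsmul_mem h6 u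

end Abstract

end Fermat.Agent.R38
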