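import Mathlib
import Fermat.Agent.R38.S.Line
import Fermat.Agent.R38.SpineDefs
import Fermat.Agent.S33.PNew
import Fermat.Agent.Lib.MultRed.StrictOrd
import Fermat.Agent.Lib.BadRed.Final.Main

set_option autoImplicit false
set_option linter.unusedVariables false
set_option linter.unusedSectionVars false
set_option linter.style.haveILetI false
set_option synthInstance.maxHeartbeats 400000
set_option maxHeartbeats 1000000

/-!
# Row 38, block S: the junction J-S (helper11)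

* `r38_G1_at`, `r38_fix_at`, `r38_notMem_kPrime_at` : the statements of `R38/S/Line.lean` at a
  level `M` with `h : M = N₀ * p`, `hM : M = D.Q * D.R` (level casts);
* `blockS` : **J-S** at the spine level `D.Q * D.R`: for a Galois-equivariant injection
  `θ : E[p] → J₀(D.Q D.R)(ℚ̄)` with `p`-new values, `E = W ⊗ ℚ` with multiplicative reduction at
  `p = D.Q` (odd, `AuxOK D`), and a place `A ∣ p`:
  - `θ x ∉ K'` for every `x` outside the kernel of reduction of `E` at `A`, and such `x` exist;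
  - `spUnip p A (θ x)` for all `x`;
  - `σ • θ x - θ x ∈ K'` (and is `p`-new) for `σ` in the inertia group.
-/

noncomputable section

namespace Fermat.Agent.R38

open ModularCurve AlgebraicCurve Fermat.Agent.F3 Fermat.Agent.AtkinLehner Fermat.Agent.BadRed
  Fermat.Agent.BadRed.PNew Fermat.Agent.BadRed.PullAux Fermat.Agent.F3Deg Fermat.Agent.F3DegW
  Fermat.Agent.S33 Fermat.Agent.S35 WeierstrassCurve WeierstrassCurve.Affine
  Fermat.Agent.MultRed S05H5 S05H65 S05H75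

local notation "Qb" => (AlgebraicClosure ℚ)

section Cast

variable {M N₀ p : ℕ} [NeZero M] [NeZero N₀] [NeZero p] {D : ALData}
  {A : ValuationSubring Qb}

/-- **(G1)** at the level `M = N₀ * p`. -/
theorem r38_G1_at (h : M = N₀ * p) (hM : M = D.Q * D.R) (hp : p.Prime) (hQ : D.Q = p)
    (hA : A.LiesOverPrime p) {n : ℕ} {x : JZero M} (hx : (p ^ n) • x = 0)
    (h1 : pnewAlpha h x = 0) (h2 : pnewBeta h D hM x = 0)
    {τ : Qb ≃ₐ[ℚ] Qb} (hτ : τ ∈ A.inertiaSubgroupIn ℚ) :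
    pnewAlpha h (τ • x - x) = 0 ∧ pnewBeta h D hM (τ • x - x) = 0 ∧
      τ • x - x ∈ kPrime D hM A p := by
  subst h
  have h3 := r38_splitG1 (hM := hM) hp hQ hA hx h1 h2 hτ
  rw [mem_spSub_iff] at h3
  exact ⟨h3.1, h3.2.1, mem_kPrime_iff.mpr h3.2.2⟩

/-- an element of the inertia group which fixes `μ_p` fixes the `p`-new classes of `K'[p]`. -/
theorem r38_fix_at (h : M = N₀ * p) (hM : M = D.Q * D.R) (hp : p.Prime) (hpN : ¬ p ∣ N₀)
    (hQ : D.Q = p) (hR : D.R = N₀) (haux : AuxLevel.AuxOK D) (hA : A.LiesOverPrime p)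
    {l : JZero M} (h1 : pnewAlpha h l = 0) (h2 : pnewBeta h D hM l = 0)
    (hl : l ∈ kPrime D hM A p) (hpl : p • l = 0)
    {σ : Qb ≃ₐ[ℚ] Qb} (hσ : σ ∈ A.inertiaSubgroupIn ℚ)
    (hfix : ∀ ζ : Qb, ζ ^ p = 1 → σ ζ = ζ) : σ • l = l := by
  subst h
  have hSp : l ∈ spSub N₀ p D hM A := by
    rw [mem_spSub_iff]
    exact ⟨h1, h2, mem_kPrime_iff.mp hl⟩
  exact r38_inertia_fix (hM := hM) hp hpN hQ hR haux hA hSp hpl hσ hfix

/-- **(E)**, abstract form, at the level `M = N₀ * p`. -/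
theorem r38_notMem_kPrime_at {G : Type*} [AddCommGroup G] [DistribMulAction (Qb ≃ₐ[ℚ] Qb) G]
    (h : M = N₀ * p) (hM : M = D.Q * D.R) (hp : p.Prime) (hp2 : p ≠ 2) (hpN : ¬ p ∣ N₀)
    (hQ : D.Q = p) (hR : D.R = N₀) (haux : AuxLevel.AuxOK D) (hA : A.LiesOverPrime p)
    (E1 : AddSubgroup G)
    (hE1 : ∀ σ ∈ A.inertiaSubgroupIn ℚ, ∀ x : G, p • x = 0 → σ • x - x ∈ E1)
    (θ : G →+ JZero M)
    (hinj : ∀ x : G, p • x = 0 → θ x = 0 → x = 0)
    (heq : ∀ (σ : Qb ≃ₐ[ℚ] Qb) (x : G), θ (σ • x) = σ • θ x)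
    (hnew : ∀ x : G, p • x = 0 → pnewAlpha h (θ x) = 0 ∧ pnewBeta h D hM (θ x) = 0)
    {x : G} (hx : p • x = 0) (hx1 : x ∉ E1) : θ x ∉ kPrime D hM A p := by
  subst h
  exact r38_notMem_kPrime (hM := hM) hp hp2 hpN hQ hR haux hA E1 hE1 θ hinj heq hnew hx hx1

end Cast

section Spine

variable (D : ALData) [NeZero D.Q] [NeZero D.R] [NeZero (D.Q * D.R)]
  (A : ValuationSubring Qb) (W : WeierstrassCurve ℤ)

/-- the `p`-torsion of `E = W ⊗ ℚ` over `ℚ̄`, `p = D.Q` (`= R38.ETors (W.map _) D.Q`). -/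
abbrev STors : Type :=
  ↥(Submodule.torsionBy ℤ ((W.map (Int.castRingHom ℚ))⁄Qb).Point ((D.Q : ℕ) : ℤ))

/-- the kernel of reduction at `A` inside `E[p]`. -/
def sRedKer : AddSubgroup (STors D W) :=
  (kerRedSubgroup W A).comap
    (Submodule.torsionBy ℤ ((W.map (Int.castRingHom ℚ))⁄Qb).Point ((D.Q : ℕ) : ℤ)).subtype.toAddMonoidHom

theorem mem_sRedKer {x : STors D W} :
    x ∈ sRedKer D A W ↔
      InG1 A.valuation (x.1 : ((W.map (Int.castRingHom ℚ))⁄Qb).Point) := Iff.rfl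

variable {D A W}

theorem sTors_smul (x : STors D W) : (D.Q : ℕ) • x = 0 := by
  apply Subtype.ext
  have h := x.2
  rw [Submodule.mem_torsionBy_iff, natCast_zsmul] at h
  exact h

variable (hq : D.Q.Prime) (hq2 : D.Q ≠ 2) (haux : AuxLevel.AuxOK D) (hA : A.LiesOverPrime D.Q)
  (hΔ0 : W.Δ ≠ 0) (hΔ : (D.Q : ℤ) ∣ W.Δ) (hc₄ : ¬ (D.Q : ℤ) ∣ W.c₄)
  (θ : STors D W →+ JZero (D.Q * D.R)) (hinj : Function.Injective θ)
  (heq : ∀ (σ : Qb ≃ₐ[ℚ] Qb) (x : STors D W), θ (σ • x) = σ • θ x)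
  (hnew : ∀ x : STors D W, pnewAlpha (mul_comm D.Q D.R) (θ x) = 0 ∧
    pnewBeta (mul_comm D.Q D.R) D rfl (θ x) = 0)

include hq hq2 hA hΔ hc₄ in
/-- inertia acts trivially on `E[p]` modulo the kernel of reduction. -/
theorem sRedKer_inertia (σ : Qb ≃ₐ[ℚ] Qb) (hσ : σ ∈ A.inertiaSubgroupIn ℚ) (x : STors D W) :
    σ • x - x ∈ sRedKer D A W := by
  haveI : Fact D.Q.Prime := ⟨hq⟩
  rw [mem_sRedKer]
  have hx : D.Q ^ 1 • (x : ((W.map (Int.castRingHom ℚ))⁄Qb).Point) = 0 := by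
    rw [pow_one]
    exact congrArg Subtype.val (sTors_smul x)
  exact inertia_sub_inG1 W hΔ hc₄ A hA hq2 σ hσ 1 _ hx

include hq hA hΔ0 hΔ hc₄ in
/-- some point of `E[p]` is outside the kernel of reduction. -/
theorem exists_notMem_sRedKer : ∃ x : STors D W, x ∉ sRedKer D A W := by
  haveI : Fact D.Q.Prime := ⟨hq⟩
  have hΔ0' : (W.map (Int.castRingHom ℚ)).Δ ≠ 0 := by
    rw [WeierstrassCurve.map_Δ, eq_intCast]
    exact_mod_cast hΔ0
  obtain ⟨P, hP, hP1⟩ := exists_torsion_not_inG1 W hΔ0' hΔ hc₄ A hA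
  refine ⟨⟨P, ?_⟩, hP1⟩
  rw [Submodule.mem_torsionBy_iff, natCast_zsmul]
  exact hP

include hq hq2 haux hA hΔ hc₄ hinj heq hnew in
/-- **J-S, clause 1**: the points of `E[p]` outside the kernel of reduction go to classes outside
`K'` (`Ψ ≠ 0`). -/
theorem blockS_notMem {x : STors D W} (hx : x ∉ sRedKer D A W) :
    θ x ∉ kPrime D (rfl : D.Q * D.R = D.Q * D.R) A D.Q :=
  r38_notMem_kPrime_at (mul_comm D.Q D.R) rfl hq hq2 (ALData_not_dvd D hq) rfl rfl haux hA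
    (sRedKer D A W) (fun σ hσ x _ => sRedKer_inertia hq hq2 hA hΔ hc₄ σ hσ x) θ
    (fun x _ h0 => hinj (h0.trans (map_zero θ).symm)) heq (fun x _ => hnew x) (sTors_smul x) hx

include hq hA hnew heq in
/-- **J-S, clause 3**: inertia moves the image of `θ` inside `K'` (and inside the `p`-new part). -/
theorem blockS_sub_mem (x : STors D W) {σ : Qb ≃ₐ[ℚ] Qb} (hσ : σ ∈ A.inertiaSubgroupIn ℚ) :
    pnewAlpha (mul_comm D.Q D.R) (σ • θ x - θ x) = 0 ∧
      pnewBeta (mul_comm D.Q D.R) D rfl (σ • θ x - θ x) = 0 ∧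
      σ • θ x - θ x ∈ kPrime D (rfl : D.Q * D.R = D.Q * D.R) A D.Q := by
  have hx : (D.Q ^ 1) • θ x = 0 := by
    rw [pow_one, ← map_nsmul, sTors_smul, map_zero]
  exact r38_G1_at (mul_comm D.Q D.R) rfl hq rfl hA hx (hnew x).1 (hnew x).2 hσ

include hq haux hA hnew heq in
/-- **J-S, clause 2**: `spUnip`. -/
theorem blockS_unip (x : STors D W) : spUnip D.Q A (θ x) := by
  intro ζ hζ σ hσ τ hτ hτζ
  obtain ⟨h1, h2, h3⟩ := blockS_sub_mem hq hA θ heq hnew x hσ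
  have hpl : D.Q • (σ • θ x - θ x) = 0 := by
    have hx : D.Q • θ x = 0 := by rw [← map_nsmul, sTors_smul, map_zero]
    rw [nsmul_sub, smul_comm, hx, sub_zero]
    exact smul_zero (A := JZero (D.Q * D.R)) σ
  refine r38_fix_at (mul_comm D.Q D.R) rfl hq (ALData_not_dvd D hq) rfl rfl haux hA h1 h2 h3 hpl
    hτ ?_
  intro μ hμ
  obtain ⟨k, -, rfl⟩ := hζ.eq_pow_of_pow_eq_one hμ
  rw [map_pow, hτζ]

include hq hq2 haux hA hΔ0 hΔ hc₄ hinj heq hnew in
/-- **J-S** (block S of row 38). -/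
theorem blockS :
    (∃ x : STors D W, θ x ∉ kPrime D (rfl : D.Q * D.R = D.Q * D.R) A D.Q) ∧
      (∀ x : STors D W, spUnip D.Q A (θ x)) ∧
      ∀ (x : STors D W) (σ : Qb ≃ₐ[ℚ] Qb), σ ∈ A.inertiaSubgroupIn ℚ →
        σ • θ x - θ x ∈ kPrime D (rfl : D.Q * D.R = D.Q * D.R) A D.Q := by
  obtain ⟨x, hx⟩ := exists_notMem_sRedKer (D := D) hq hA hΔ0 hΔ hc₄
  exact ⟨⟨x, blockS_notMem hq hq2 haux hA hΔ hc₄ θ hinj heq hnew hx⟩,
    fun x => blockS_unip hq haux hA θ heq hnew x,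
    fun x σ hσ => (blockS_sub_mem hq hA θ heq hnew x hσ).2.2⟩

end Spine

end Fermat.Agent.R38
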