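import Mathlib
import Fermat.Agent.R38.S.Junction
import Fermat.Agent.R38.Spine
import Fermat.Agent.R38.T.FreyData
import Fermat.Agent.Lib.Frey.Basic

set_option autoImplicit false
set_option linter.unusedVariables false
set_option linter.unusedSectionVars false
set_option linter.style.haveILetI false
set_option synthInstance.maxHeartbeats 400000
set_option maxHeartbeats 1000000

/-!
# Row 38, block S: the junction `SpJS` of the spine (helper11)

`spJS : SpJS`.  `E` is the integral Frey model `P.freyCurveInt` (multiplicative reduction at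
`p ∣ abc`); `E1 ≤ E[p]` is the kernel of reduction at `A`.
-/

noncomputable section

namespace Fermat.Agent.R38

open ModularCurve AlgebraicCurve Fermat.Agent.F3 Fermat.Agent.AtkinLehner Fermat.Agent.BadRed
  Fermat.Agent.BadRed.PNew Fermat.Agent.BadRed.PullAux Fermat.Agent.F3Deg Fermat.Agent.F3DegW
  Fermat.Agent.S33 Fermat.Agent.S35 WeierstrassCurve WeierstrassCurve.Affine
  Fermat.Agent.MultRed S05H5 S05H65 S05H75 Fermat.Agent.FreyLib
  Fermat.Agent.R38T

local notation "Qb" => (AlgebraicClosure ℚ)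

section Ker

variable (P : FreyPackage) (A : ValuationSubring Qb)

/-- the kernel of reduction of `P.freyCurveInt` at `A` in `E[p]`. -/
def sKer : AddSubgroup (spETors P.freyCurveInt P.p) :=
  (kerRedSubgroup P.freyCurveInt A).comap
    (Submodule.torsionBy ℤ ((P.freyCurveInt.map (Int.castRingHom ℚ))⁄Qb).Point
      ((P.p : ℕ) : ℤ)).subtype.toAddMonoidHom

variable {P A}

theorem mem_sKer {x : spETors P.freyCurveInt P.p} :
    x ∈ sKer P A ↔ InG1 A.valuation x.1 := Iff.rfl

theorem spETors_smul (W : WeierstrassCurve ℤ) (p : ℕ) (x : spETors W p) : p • x = 0 := by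
  apply Subtype.ext
  have h := x.2
  rw [Submodule.mem_torsionBy_iff, natCast_zsmul] at h
  exact h

end Ker

/-- **J-S** (block S of row 38). -/
theorem spJS : SpJS := by
  intro P D _ _ _ hDQ hqR hcond W S hW hS θ hθ A hA
  obtain ⟨hinj, heq, hnewE⟩ := hθ
  have hq : D.Q.Prime := hDQ ▸ P.pp
  have hq5 : 5 ≤ D.Q := hDQ ▸ P.hp5
  have hq2 : D.Q ≠ 2 := by omega
  have haux : AuxLevel.AuxOK D := ⟨fun h => by omega, fun h => by omega⟩
  haveI : Fact P.p.Prime := ⟨P.pp⟩
  have hAp : A.LiesOverPrime P.p := hDQ ▸ hA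
  have hpabc : (P.p : ℤ) ∣ P.a * P.b * P.c :=
    hcond.support P.p P.pp (hDQ ▸ dvd_mul_right D.Q D.R)
  have hΔ := freyData_dvd_Δ P hpabc
  have hc₄ := freyData_not_dvd_c₄ P hpabc
  have hΔ0 : (P.freyCurveInt.map (Int.castRingHom ℚ)).Δ ≠ 0 := by
    rw [WeierstrassCurve.map_Δ, eq_intCast]
    exact_mod_cast freyCurveInt_Δ_ne_zero P
  have hp2 : P.p ≠ 2 := by have := P.hp5; omega
  -- the hypotheses of the abstract statements
  have hnew : ∀ x : spETors P.freyCurveInt P.p, pnewAlpha (mul_comm D.Q D.R) (θ x) = 0 ∧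
      pnewBeta (mul_comm D.Q D.R) D rfl (θ x) = 0 :=
    fun x => ⟨(hnewE x).2.1, (hnewE x).2.2.1⟩
  have htors : ∀ x : spETors P.freyCurveInt P.p, D.Q • x = 0 := fun x => by
    rw [hDQ]
    exact spETors_smul _ _ x
  have hE1 : ∀ σ ∈ A.inertiaSubgroupIn ℚ, ∀ x : spETors P.freyCurveInt P.p, D.Q • x = 0 →
      σ • x - x ∈ sKer P A := by
    intro σ hσ x _
    rw [mem_sKer]
    have hx : P.p ^ 1 • (x : ((P.freyCurveInt.map (Int.castRingHom ℚ))⁄Qb).Point) = 0 := by
      rw [pow_one]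
      exact congrArg Subtype.val (spETors_smul _ _ x)
    exact inertia_sub_inG1 P.freyCurveInt hΔ hc₄ A hAp hp2 σ hσ 1 _ hx
  refine ⟨?_, fun x => ?_⟩
  · -- clause 1
    obtain ⟨P₀, hP₀, hP₀1⟩ := exists_torsion_not_inG1 P.freyCurveInt hΔ0 hΔ hc₄ A hAp
    set x : spETors P.freyCurveInt P.p := ⟨P₀, by
      rw [Submodule.mem_torsionBy_iff, natCast_zsmul]
      exact hP₀⟩ with hx
    have hx1 : x ∉ sKer P A := by
      rw [mem_sKer]
      exact hP₀1
    exact ⟨x, r38_notMem_kPrime_at (mul_comm D.Q D.R) rfl hq hq2 hqR rfl rfl haux hA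
      (sKer P A) hE1 θ (fun x _ h0 => hinj (h0.trans (map_zero θ).symm)) heq
      (fun x _ => hnew x) (htors x) hx1⟩
  · -- clause 2
    intro ζ hζ σ hσ τ hτ hτζ
    have hx : (D.Q ^ 1) • θ x = 0 := by
      rw [pow_one, ← map_nsmul, htors, map_zero]
    obtain ⟨h1, h2, h3⟩ := r38_G1_at (mul_comm D.Q D.R) rfl hq rfl hA hx (hnew x).1 (hnew x).2 hσ
    have hpl : D.Q • (σ • θ x - θ x) = 0 := by
      have hx' : D.Q • θ x = 0 := by rw [← map_nsmul, htors, map_zero]
      rw [nsmul_sub, smul_comm, hx', sub_zero]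
      exact smul_zero (A := JZero (D.Q * D.R)) σ
    refine r38_fix_at (mul_comm D.Q D.R) rfl hq hqR rfl rfl haux hA h1 h2 h3 hpl hτ ?_
    intro μ hμ
    obtain ⟨k, -, rfl⟩ := hζ.eq_pow_of_pow_eq_one hμ
    rw [map_pow, hτζ]

end Fermat.Agent.R38
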